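import Fermat.Agent.S17.H17.Assembly
import Fermat.Agent.S17.H677.UnramifiedFinal
import Fermat.Agent.S17.H497.HermiteMinkowski
import Fermat.Agent.S17.H317.TorsionFinite
import Fermat.Agent.S17.GDiv.Final

/-!
# S17 (row-lead helper17): the frozen statement from tower H alone

`result_of_height` : the frozen statement S17 from `HasDescentHeight N 2`.
Towers W (BASE-1 `H77`, W-KUM `H857`, W-UNR `H677` unconditional via the S18 hub, W-HM `H497`)
and G (G-TORS `H317`, G-DIV `GDiv.divisible`) are on main and wired here.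
-/

set_option autoImplicit false

noncomputable section

namespace Fermat.Agent.S17.H17

open ModularCurve AlgebraicCurve

/-- **S17 from a descent height.** -/
theorem result_of_height (N : ℕ) [NeZero N] (hN : N.Prime) (hN5 : 5 ≤ N)
    (hH : HasDescentHeight N 2) :
    AddGroup.FG ↥(FixedPoints.addSubgroup ((AlgebraicClosure ℚ) ≃ₐ[ℚ] (AlgebraicClosure ℚ))
      (JZero N)) := by
  classical
  refine result_of_unr N 2 le_rfl (Fermat.Agent.S17.H317.torsion_finite N 2 two_ne_zero)
    (fun x => Fermat.Agent.S17.GDiv.divisible N 2 two_ne_zero x)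
    ((2 * N).primeFactors) ?_
    (fun d => Fermat.Agent.S17.H497.finite_unramified_fields _ d) hH
  intro ℓ hℓ hℓS A hA σ hσ y hy
  refine Fermat.Agent.S17.H677.unramified_division N hN hN5 2 two_ne_zero ℓ hℓ ?_ A hA σ hσ y hy
  intro hdvd
  exact hℓS (Nat.mem_primeFactors.mpr ⟨hℓ, hdvd, mul_ne_zero two_ne_zero hN.ne_zero⟩)

end Fermat.Agent.S17.H17
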