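import Fermat.Agent.S17.H617.HWallDefs
import Fermat.Agent.S17.H380.AbsDef

/-!
# S17 / tower H — the CONTRACT between TOP and WALL (row-lead helper17)

Definitions only (no `sorry`).  All `def … : Prop` are FROZEN interfaces: the WALL produces them,
TOP consumes them.

* `E₁ : EmbData K F` — the embedding used for POINTS and DISTANCES (degree `n = E₁.m`);
* `E₂ : EmbData K F` — the embedding used for FORMS / hyperplane sections (degree `M = E₂.m`);
  `E₁ = E₂` is allowed (route L1 of helper617/helper500), `M ≥ d n + 2 g` in route helper710.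
* heights: `ht = Fermat.Agent.S17.H380.absLogHeight` (absolute logarithmic height of a tuple).

The five statements (`C` is ONE constant, uniform in everything quantified after it):

* `E3Statement`   : `| (Z_a . P) − h(a) − h_M(P) | ≤ C` for all forms `a ≠ 0` and `P ∉ Z_a`;
* `ADJStatement`  : `| (Z_a − P . P) − κ(P) − h(a) − h_M(P) | ≤ C` at a simple zero `P` of `a`,
                    `κ(P) = h(pt P ∧ tn P) − 2 h(pt P)` (degree `n`);
* `VDMStatement`  : `h(PT P₁ ∧ … ∧ PT P_d) ≤ Σ h_M(P_i) − Σ_{i<j} hD(P_i, P_j) + C`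
                    for distinct `P_1, …, P_d`, `d ≤ d₀`;
* `GAUSSStatement`: `| κ(P) − (K₀ . P) | ≤ C` for ONE divisor `K₀` of degree `2g − 2`, `P ∉ K₀`;
* `NCStatement`   : `| n · h_M(P) − M · h_n(P) | ≤ C`.

Here `(D . P) = Σ_A D(A) hD(A, P)` and `hD(A, P) = h_n(A) + h_n(P) − h(pt A ∧ pt P)`.
-/

set_option autoImplicit false

noncomputable section

open AlgebraicCurve

namespace Fermat.Agent.S17.HContract

open Fermat.Agent.Lib.RR Fermat.Agent.S17.HWall

variable {K F : Type*} [Field K] [CharZero K] [Field F] [Algebra K F] [FF1 K F]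

/-- the absolute logarithmic height of a tuple -/
abbrev ht {ι : Type*} [Finite ι] (y : ι → K) : ℝ := Fermat.Agent.S17.H380.absLogHeight y

/-- Plücker coordinates of `y₁ ∧ … ∧ y_d` (indexed as `Fermat.Agent.S17.H980.minorQ`). -/
def plucker {d n : ℕ} (y : Fin d → Fin n → K) (e : Fin d ↪ Fin n) : K :=
  Matrix.det (Matrix.of fun i j => y i (e j))

/-- the diagonal height `hD(A, P) = h(pt A) + h(pt P) − h(pt A ∧ pt P)` in the embedding `E` -/
def hD (E : EmbData K F) (A P : Place K F) : ℝ :=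
  ht (E.pt A) + ht (E.pt P) - ht (wedge (E.pt A) (E.pt P))

/-- `(D . P) = Σ_A D(A) hD(A, P)` -/
def pairPt (E : EmbData K F) (D : Divisor K F) (P : Place K F) : ℝ :=
  D.sum fun A n => (n : ℝ) * hD E A P

/-- `(D . D') = Σ_{A, P} D(A) D'(P) hD(A, P)` (to be used for divisors with disjoint supports) -/
def pair (E : EmbData K F) (D D' : Divisor K F) : ℝ :=
  D'.sum fun P n => (n : ℝ) * pairPt E D P

/-- the adjunction term `κ(P) = h(pt P ∧ tn P) − 2 h(pt P)` -/
def kap (E : EmbData K F) (P : Place K F) : ℝ :=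
  ht (wedge (E.pt P) (E.tn P)) - 2 * ht (E.pt P)

/-- the naive height `N(D) = Σ_P D(P) h(pt P)` of a divisor in the embedding `E` -/
def naive (E : EmbData K F) (D : Divisor K F) : ℝ :=
  D.sum fun P n => (n : ℝ) * ht (E.pt P)

/-- **(E3)** -/
def E3Statement (E₁ E₂ : EmbData K F) : Prop :=
  ∃ C : ℝ, ∀ (a : Fin (E₂.r + 1) → K) (P : Place K F), a ≠ 0 → dot a (E₂.pt P) ≠ 0 →
    |pairPt E₁ (E₂.Z a) P - ht a - ht (E₂.pt P)| ≤ C

/-- **(ADJ)**: (E3) at a simple zero, with the self-pairing regularised by `−κ`. -/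
def ADJStatement (E₁ E₂ : EmbData K F) : Prop :=
  ∃ C : ℝ, ∀ (a : Fin (E₂.r + 1) → K) (P : Place K F), a ≠ 0 → E₂.Z a P = 1 →
    |pairPt E₁ ((E₂.Z a).erase P) P - kap E₁ P - ht a - ht (E₂.pt P)| ≤ C

/-- **(VDM)**: Hadamard/Vandermonde with distances, for at most `d₀` distinct points. -/
def VDMStatement (E₁ E₂ : EmbData K F) (d₀ : ℕ) : Prop :=
  ∃ C : ℝ, ∀ (d : ℕ) (P : Fin d → Place K F), d ≤ d₀ → Function.Injective P →
    ht (plucker fun i => E₂.pt (P i)) ≤
      (∑ i, ht (E₂.pt (P i))) - (∑ i, ∑ j, if i < j then hD E₁ (P i) (P j) else 0) + C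

/-- **(GAUSS)**: `κ` is a height for a divisor of degree `2g − 2`. -/
def GAUSSStatement (E₁ : EmbData K F) : Prop :=
  ∃ (K₀ : Divisor K F) (C : ℝ), Divisor.degree K₀ = 2 * (genusR K F : ℤ) - 2 ∧
    ∀ P : Place K F, K₀ P = 0 → |kap E₁ P - pairPt E₁ K₀ P| ≤ C

/-- **(NC)**: comparison of the two embeddings. -/
def NCStatement (E₁ E₂ : EmbData K F) : Prop :=
  ∃ C : ℝ, ∀ P : Place K F,
    |(E₁.m : ℝ) * ht (E₂.pt P) - (E₂.m : ℝ) * ht (E₁.pt P)| ≤ C

/-- **The contract**: everything TOP needs from the WALL. -/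
structure Contract (E₁ E₂ : EmbData K F) (d₀ : ℕ) : Prop where
  vinf_eq : E₁.vinf = E₂.vinf
  e3 : E3Statement E₁ E₂
  adj : ADJStatement E₁ E₂
  vdm : VDMStatement E₁ E₂ d₀
  gauss : GAUSSStatement E₁
  nc : NCStatement E₁ E₂

end Fermat.Agent.S17.HContract
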