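import Fermat.Agent.S37.H697.Final
import Fermat.Agent.S17.H857.WeakMW
import Fermat.Agent.S17.H77.Stab

/-!
# S17 (row-lead helper17): the frozen statement S17 from NAMED INPUTS (sorry-free)

`result_of` proves the frozen statement S17 (Mordell–Weil for `J₀(N)`) from

* `hRed  : GoodReductionOutside N S₀`  — `ReductionInputsModL A N` for all `A ∣ ℓ`, `ℓ ∉ S₀`
  (S37 row, `node_rim`);
* `hS18  : InjTorsionOutside N S₀`     — the conclusion of the frozen statement S18 at those `ℓ`;
* `hTors : Finite (J₀(N)[n])`, `hDiv : J₀(N)(ℚ̄) = n J₀(N)(ℚ̄)`   (tower G);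
* `hHM`   — Hermite–Minkowski (piece W-HM);
* `hH    : HasDescentHeight N n`       — a descent height (tower H).

Proved here: W-UNR (`unramified_division_of`: division points of rational points are unramified
outside `S₀ ∪ {ℓ ∣ n}`), the descent step and the wiring.  Landed pieces used:
BASE-1 (`H77.stabilizer_open`), W-KUM (`H857.weakMW_of`), `S37.H697.reductionModL_inertia`.
-/

set_option autoImplicit false
set_option synthInstance.maxHeartbeats 400000

noncomputable section

namespace Fermat.Agent.S17.H17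

open ModularCurve AlgebraicCurve

/-- `ℚ̄` -/
abbrev Qb : Type := AlgebraicClosure ℚ

/-- the absolute Galois group of `ℚ` -/
abbrev GQ : Type := Qb ≃ₐ[ℚ] Qb

/-- The Mordell–Weil group `J₀(N)(ℚ)`. -/
abbrev MW (N : ℕ) : AddSubgroup (JZero N) := FixedPoints.addSubgroup GQ (JZero N)

/-- weak Mordell–Weil for the exponent `n` -/
def WeakMW (N n : ℕ) : Prop := (nsmulAddMonoidHom n : MW N →+ MW N).range.FiniteIndex

/-- a descent height for the exponent `n` on the Mordell–Weil group -/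
def HasDescentHeight (N n : ℕ) : Prop :=
  ∃ (h : MW N → ℝ) (a b c₀ : ℝ) (c : MW N → ℝ), 0 ≤ a ∧ a < b ∧
    (∀ B : ℝ, {x : MW N | h x ≤ B}.Finite) ∧
    (∀ g x : MW N, h x ≤ a * h (g + x) + c g) ∧
    (∀ x : MW N, b * h x - c₀ ≤ h (n • x))

/-- good reduction of `X₀(N)` (existence of a place reduction) at all primes outside `S₀` -/
def GoodReductionOutside (N : ℕ) (S₀ : Finset ℕ) : Prop :=
  ∀ ℓ : ℕ, ℓ.Prime → ℓ ∉ S₀ → ∀ A : ValuationSubring Qb, A.LiesOverPrime ℓ →
    ReductionInputsModL A N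

/-- the conclusion of the frozen statement S18 at all primes outside `S₀` -/
def InjTorsionOutside (N : ℕ) (S₀ : Finset ℕ) : Prop :=
  ∀ ℓ : ℕ, ℓ.Prime → ℓ ∉ S₀ → ∀ A : ValuationSubring Qb, A.LiesOverPrime ℓ →
    ReductionInputsModL A N → ∀ m : ℕ, ¬ ℓ ∣ m → ∀ z : JZero N, m • z = 0 →
      reductionModL A N z = 0 → z = 0

/-- Hermite–Minkowski for the finite set `S` of primes (piece W-HM). -/
def HermiteMinkowski (S : Finset ℕ) : Prop :=
  ∀ d : ℕ, {K : IntermediateField ℚ Qb | FiniteDimensional ℚ K ∧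
    Module.finrank ℚ K ≤ d ∧ ∀ ℓ : ℕ, ℓ.Prime → ℓ ∉ S →
      ∀ A : ValuationSubring Qb, A.LiesOverPrime ℓ → ∀ σ ∈ A.inertiaSubgroupIn ℚ,
        ∀ a ∈ K, σ a = a}.Finite

/-- TOP: descent (Mathlib `AddCommGroup.fg_of_descent`). -/
theorem fg_of_weakMW_of_height (N n : ℕ) (hW : WeakMW N n) (hH : HasDescentHeight N n) :
    AddGroup.FG (MW N) := by
  obtain ⟨h, a, b, c₀, c, ha, hab, hfin, h2, h3⟩ := hH
  have : Northcott h := ⟨hfin⟩
  exact AddCommGroup.fg_of_descent ha hab hW h2 h3

/-- W-UNR: division points of rational points are unramified at `ℓ ∉ S₀`, `ℓ ∤ n`. -/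
theorem unramified_division_of (N : ℕ) [NeZero N] (S₀ : Finset ℕ)
    (hRed : GoodReductionOutside N S₀) (hS18 : InjTorsionOutside N S₀)
    (n : ℕ) (ℓ : ℕ) (hℓ : ℓ.Prime) (hℓS : ℓ ∉ S₀) (hℓn : ¬ ℓ ∣ n)
    (A : ValuationSubring Qb) (hA : A.LiesOverPrime ℓ) (σ : GQ) (hσ : σ ∈ A.inertiaSubgroupIn ℚ)
    (y : JZero N) (hy : n • y ∈ MW N) : σ • y = y := by
  have h := hRed ℓ hℓ hℓS A hA
  have hz : σ • y - y = 0 := by
    refine hS18 ℓ hℓ hℓS A hA h n hℓn (σ • y - y) ?_ ?_
    · have hfix : σ • (n • y) = n • y := hy σ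
      have hcomm : n • (σ • y) = σ • (n • y) :=
        (map_nsmul (DistribSMul.toAddMonoidHom (JZero N) σ) n y).symm
      rw [nsmul_sub, hcomm, hfix, sub_self]
    · rw [map_sub, Fermat.Agent.S37.H697.reductionModL_inertia N A h
        (Fermat.Agent.S37.H697.riemannBound_modular N) σ hσ y, sub_self]
  exact sub_eq_zero.mp hz

/-- unramifiedness of the `n`-division points of rational points outside the finite set `S`
(the conclusion of piece W-UNR, in the shape consumed by W-KUM) -/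
def UnramifiedDivisionOutside (N : ℕ) (n : ℕ) (S : Finset ℕ) : Prop :=
  ∀ ℓ : ℕ, ℓ.Prime → ℓ ∉ S → ∀ A : ValuationSubring Qb, A.LiesOverPrime ℓ →
    ∀ σ ∈ A.inertiaSubgroupIn ℚ, ∀ y : JZero N,
      n • y ∈ FixedPoints.addSubgroup GQ (JZero N) → σ • y = y

/-- W-UNR in the shape `UnramifiedDivisionOutside`, from good reduction and S18. -/
theorem unramifiedDivisionOutside_of (N : ℕ) [NeZero N] (S₀ : Finset ℕ)
    (hRed : GoodReductionOutside N S₀) (hS18 : InjTorsionOutside N S₀) (n : ℕ) (hn : n ≠ 0) :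
    UnramifiedDivisionOutside N n (S₀ ∪ n.primeFactors) := by
  classical
  intro ℓ hℓ hℓS A hA σ hσ y hy
  rw [Finset.mem_union, not_or] at hℓS
  refine unramified_division_of N S₀ hRed hS18 n ℓ hℓ hℓS.1 ?_ A hA σ hσ y hy
  intro hdvd
  exact hℓS.2 (Nat.mem_primeFactors.mpr ⟨hℓ, hdvd, hn⟩)

/-- weak Mordell–Weil from: finite `n`-torsion, `n`-divisibility, unramified division points
outside `S`, Hermite–Minkowski for `S`.  (BASE-1 and W-KUM are on main.) -/
theorem weakMW_of_inputs (N : ℕ) [NeZero N] (n : ℕ) (hn : n ≠ 0)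
    (hTors : Finite (Pic0.torsion Qb (modularFunctionFieldBar N) n))
    (hDiv : ∀ x : JZero N, ∃ y : JZero N, n • y = x)
    (S : Finset ℕ) (hUnr : UnramifiedDivisionOutside N n S) (hHM : HermiteMinkowski S) :
    WeakMW N n :=
  Fermat.Agent.S17.H857.weakMW_of N n hn (Fermat.Agent.S17.H77.stabilizer_open N) hTors hDiv
    S hUnr hHM

/-- **The frozen statement S17 from named inputs** (abstract unramifiedness hypothesis). -/
theorem result_of_unr (N : ℕ) [NeZero N] (n : ℕ) (hn : 2 ≤ n)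
    (hTors : Finite (Pic0.torsion Qb (modularFunctionFieldBar N) n))
    (hDiv : ∀ x : JZero N, ∃ y : JZero N, n • y = x)
    (S : Finset ℕ) (hUnr : UnramifiedDivisionOutside N n S) (hHM : HermiteMinkowski S)
    (hH : HasDescentHeight N n) :
    AddGroup.FG ↥(FixedPoints.addSubgroup ((AlgebraicClosure ℚ) ≃ₐ[ℚ] (AlgebraicClosure ℚ))
      (JZero N)) :=
  fg_of_weakMW_of_height N n (weakMW_of_inputs N n (by omega) hTors hDiv S hUnr hHM) hH

/-- **The frozen statement S17 from named inputs** (good reduction + S18 form). -/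
theorem result_of (N : ℕ) [NeZero N] (S₀ : Finset ℕ)
    (hRed : GoodReductionOutside N S₀) (hS18 : InjTorsionOutside N S₀)
    (n : ℕ) (hn : 2 ≤ n)
    (hTors : Finite (Pic0.torsion Qb (modularFunctionFieldBar N) n))
    (hDiv : ∀ x : JZero N, ∃ y : JZero N, n • y = x)
    (hHM : HermiteMinkowski (S₀ ∪ n.primeFactors))
    (hH : HasDescentHeight N n) :
    AddGroup.FG ↥(FixedPoints.addSubgroup ((AlgebraicClosure ℚ) ≃ₐ[ℚ] (AlgebraicClosure ℚ))
      (JZero N)) :=
  result_of_unr N n hn hTors hDiv _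
    (unramifiedDivisionOutside_of N S₀ hRed hS18 n (by omega)) hHM hH

/-- A descent height for `n = 2` from a nonnegative Northcott function with the approximate
parallelogram law (the output shape of tower H). -/
theorem hasDescentHeight_two_of_parallelogram (N : ℕ) (h : MW N → ℝ) (C : ℝ)
    (h0 : ∀ x, 0 ≤ h x)
    (hpar : ∀ x y : MW N, |h (x + y) + h (x - y) - 2 * (h x + h y)| ≤ C)
    (hfin : ∀ B : ℝ, {x : MW N | h x ≤ B}.Finite) :
    HasDescentHeight N 2 := by
  refine ⟨h, 2, 4, h 0 + C, fun g => 2 * h (-g) + C, by norm_num, by norm_num, hfin, ?_, ?_⟩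
  · intro g x
    have := hpar (g + x) (-g)
    have e1 : g + x + -g = x := by abel
    have e2 : g + x - -g = g + x + g := by abel
    rw [e1, e2, abs_le] at this
    have := h0 (g + x + g)
    linarith [this]
  · intro x
    have := hpar x x
    rw [sub_self, abs_le] at this
    have e : (2 : ℕ) • x = x + x := two_nsmul x
    rw [e]
    linarith [this.1]

end Fermat.Agent.S17.H17
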