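import Fermat.Agent.S17.H17.Assembly
import Fermat.Agent.S17.H677.UnramifiedHub
import Fermat.Agent.S17.H497.HermiteMinkowski
import Fermat.Agent.S17.H317.TorsionFinite

/-!
# S17 (row-lead helper17): the frozen statement from the THREE open inputs

* `hCORE` : the S18 hub `CoreStatement N A 2` at all places `A` over all primes `ℓ ∉ S₀`
  (`S₀` any finite set);
* `hDiv`  : `J₀(N)(ℚ̄) = 2 J₀(N)(ℚ̄)`   (tower G-DIV);
* `hH`    : `HasDescentHeight N 2`      (tower H).

Everything else (BASE-1, W-KUM, W-UNR glue, W-HM, G-TORS) is on main and used here.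
-/

set_option autoImplicit false

noncomputable section

namespace Fermat.Agent.S17.H17

open ModularCurve AlgebraicCurve

/-- **S17 from the three open inputs.** -/
theorem result_of_core (N : ℕ) [NeZero N] (hN : N.Prime) (hN5 : 5 ≤ N) (S₀ : Finset ℕ)
    (hCORE : ∀ ℓ : ℕ, ℓ.Prime → ℓ ∉ S₀ → Fermat.Agent.S17.H677.CoreAt N ℓ 2)
    (hDiv : ∀ x : JZero N, ∃ y : JZero N, 2 • y = x)
    (hH : HasDescentHeight N 2) :
    AddGroup.FG ↥(FixedPoints.addSubgroup ((AlgebraicClosure ℚ) ≃ₐ[ℚ] (AlgebraicClosure ℚ))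
      (JZero N)) := by
  classical
  refine result_of_unr N 2 le_rfl (Fermat.Agent.S17.H317.torsion_finite N 2 two_ne_zero) hDiv
    (S₀ ∪ (2 * N).primeFactors) ?_
    (fun d => Fermat.Agent.S17.H497.finite_unramified_fields _ d) hH
  intro ℓ hℓ hℓS A hA σ hσ y hy
  rw [Finset.mem_union, not_or] at hℓS
  refine Fermat.Agent.S17.H677.unramified_division_of_hub N hN hN5 2 two_ne_zero ℓ hℓ ?_
    (hCORE ℓ hℓ hℓS.1) A hA σ hσ y hy
  intro hdvd
  exact hℓS.2 (Nat.mem_primeFactors.mpr ⟨hℓ, hdvd, mul_ne_zero two_ne_zero hN.ne_zero⟩)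

end Fermat.Agent.S17.H17
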