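import Fermat.Agent.S17.H17.HContract
import Fermat.Agent.Lib.RR.H80.Res.Bridge
import Fermat.Agent.S24.H84.SubKD

/-!
# S17 / tower H — the GAUSS interface between the GAUSS sub-project and TOP (row-lead helper17)

TOP needs (GAUSS) at a GALOIS-INVARIANT canonical divisor (`K₀ = div(dt)`, `t` a rational
function with poles at `∞` only), so `GAUSSStatement` (`∃ K₀`) is not enough.  FROZEN output of
the GAUSS sub-project:

* `GAUSSCanStatement E` : `|κ(P) − (W . P)| ≤ C_W` off `W`, for EVERY divisor `W = div ω` of a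
  nonzero Kähler differential.

Proved here (formal):

* `GAUSSAtStatement.of_off_finset` : finitely many exceptional places are absorbed by the constant;
* `GAUSSAtStatement.add_principal` : (GAUSS) at `K₀` + (PRINC) ⟹ (GAUSS) at `K₀ + div f`;
* `gaussCan_of_one` : (GAUSS) at ONE Kähler canonical divisor + (PRINC) ⟹ `GAUSSCanStatement`;
* `gaussStatement_of_can` : `GAUSSCanStatement` ⟹ `GAUSSStatement` (degree `2g − 2` by the
  bridge `Lib/RR/H80/Res/Bridge.degree_kaehler`), the input of the wall assembly.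

`PRINCStatement E` : `|(div f . P)| ≤ C_f` off `div f` (Weil's machine for ONE form of degree `k`
gives `(Z_G . P) = k h(P) + O(1)`; write `f = G₁(x) / G₂(x)`).
-/

set_option autoImplicit false

noncomputable section

open AlgebraicCurve KaehlerDifferential

namespace Fermat.Agent.S17.HContract

open Fermat.Agent.Lib.RR Fermat.Agent.S17.HWall

variable {K F : Type*} [Field K] [CharZero K] [Field F] [Algebra K F] [FF1 K F]

/-- **(GAUSS) at the divisor `K₀`**: `|κ(P) − (K₀ . P)| ≤ C` for all places `P ∉ K₀`. -/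
def GAUSSAtStatement (E : EmbData K F) (K₀ : Divisor K F) : Prop :=
  ∃ C : ℝ, ∀ P : Place K F, K₀ P = 0 → |kap E P - pairPt E K₀ P| ≤ C

/-- **(GAUSS), final form**: (GAUSS) at the divisor of every nonzero Kähler differential. -/
def GAUSSCanStatement (E : EmbData K F) : Prop :=
  ∀ (ω : Ω[F⁄K]) (W : Divisor K F), ω ≠ 0 → (∀ v : Place K F, W v = v.ordDifferential ω) →
    GAUSSAtStatement E W

/-- **(PRINC)**: the pairing with a principal divisor is bounded off its support. -/
def PRINCStatement (E : EmbData K F) : Prop :=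
  ∀ (f : F) (Df : Divisor K F), f ≠ 0 → (∀ v : Place K F, Df v = v.ord f) →
    ∃ C : ℝ, ∀ P : Place K F, Df P = 0 → |pairPt E Df P| ≤ C

theorem pairPt_add' (E : EmbData K F) (D D' : Divisor K F) (P : Place K F) :
    pairPt E (D + D') P = pairPt E D P + pairPt E D' P := by
  unfold pairPt
  rw [Finsupp.sum_add_index']
  · intro A
    rw [Int.cast_zero, zero_mul]
  · intro A n n'
    push_cast
    ring

/-- Finitely many exceptional places are absorbed by the constant. -/
theorem GAUSSAtStatement.of_off_finset {E : EmbData K F} {K₀ : Divisor K F}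
    (S : Finset (Place K F))
    (h : ∃ C : ℝ, ∀ P : Place K F, P ∉ S → K₀ P = 0 → |kap E P - pairPt E K₀ P| ≤ C) :
    GAUSSAtStatement E K₀ := by
  classical
  obtain ⟨C, hC⟩ := h
  refine ⟨|C| + ∑ P ∈ S, |kap E P - pairPt E K₀ P|, fun P hP => ?_⟩
  have hsum : 0 ≤ ∑ Q ∈ S, |kap E Q - pairPt E K₀ Q| :=
    Finset.sum_nonneg fun _ _ => abs_nonneg _
  by_cases hPS : P ∈ S
  · have := Finset.single_le_sum (f := fun Q => |kap E Q - pairPt E K₀ Q|)
      (fun _ _ => abs_nonneg _) hPS
    have h2 := abs_nonneg C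
    linarith
  · have := hC P hPS hP
    have h2 := le_abs_self C
    linarith

/-- (GAUSS) is invariant under linear equivalence, given (PRINC). -/
theorem GAUSSAtStatement.add_principal {E : EmbData K F} {K₀ : Divisor K F}
    (h : GAUSSAtStatement E K₀) (hP : PRINCStatement E) (f : F) (hf : f ≠ 0)
    (K₁ : Divisor K F) (hK₁ : ∀ v : Place K F, K₁ v = K₀ v + v.ord f) :
    GAUSSAtStatement E K₁ := by
  classical
  obtain ⟨C₀, hC₀⟩ := h
  have hDf : ∀ v : Place K F, (K₁ - K₀) v = v.ord f := fun v => by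
    rw [Finsupp.sub_apply, hK₁ v]; ring
  obtain ⟨C₁, hC₁⟩ := hP f (K₁ - K₀) hf hDf
  refine GAUSSAtStatement.of_off_finset (K₀.support ∪ (K₁ - K₀).support) ⟨C₀ + C₁, ?_⟩
  intro P hPS _
  rw [Finset.mem_union, not_or, Finsupp.notMem_support_iff, Finsupp.notMem_support_iff] at hPS
  have e : pairPt E K₁ P = pairPt E K₀ P + pairPt E (K₁ - K₀) P := by
    rw [← pairPt_add']
    congr 1
    abel
  have h0 := hC₀ P hPS.1
  have h1 := hC₁ P hPS.2
  rw [e]
  calc |kap E P - (pairPt E K₀ P + pairPt E (K₁ - K₀) P)|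
      = |(kap E P - pairPt E K₀ P) - pairPt E (K₁ - K₀) P| := by ring_nf
    _ ≤ |kap E P - pairPt E K₀ P| + |pairPt E (K₁ - K₀) P| := abs_sub _ _
    _ ≤ C₀ + C₁ := add_le_add h0 h1

/-- (GAUSS) at ONE Kähler canonical divisor and (PRINC) give (GAUSS) at all of them. -/
theorem gaussCan_of_one [IsAlgClosed K] {E : EmbData K F} (hP : PRINCStatement E)
    (ω₀ : Ω[F⁄K]) (hω₀ : ω₀ ≠ 0) (W₀ : Divisor K F)
    (hW₀ : ∀ v : Place K F, W₀ v = v.ordDifferential ω₀) (h : GAUSSAtStatement E W₀) :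
    GAUSSCanStatement E := by
  intro ω W hω hW
  obtain ⟨j, -, hjfin⟩ := FF1.exists_finite (K := K) (F := F)
  have := hjfin
  obtain ⟨f₀, hf₀⟩ := Fermat.Agent.S24.H84.kd_exists_smul_D j ω₀
  obtain ⟨f, hf⟩ := Fermat.Agent.S24.H84.kd_exists_smul_D j ω
  have hf₀0 : f₀ ≠ 0 := by rintro rfl; exact hω₀ (by rw [hf₀, zero_smul])
  have hf0 : f ≠ 0 := by rintro rfl; exact hω (by rw [hf, zero_smul])
  have hrel : ω = (f * f₀⁻¹) • ω₀ := by
    rw [hf₀, smul_smul, mul_assoc, inv_mul_cancel₀ hf₀0, mul_one, ← hf]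
  have hg : f * f₀⁻¹ ≠ 0 := mul_ne_zero hf0 (inv_ne_zero hf₀0)
  refine h.add_principal hP (f * f₀⁻¹) hg W fun v => ?_
  rw [hW v, hW₀ v, hrel, Fermat.Agent.S24.H84.kd_ordDifferential_smul j v _ hg ω₀ hω₀]
  ring

/-- `GAUSSCanStatement` gives the `GAUSSStatement` of the contract (degree `2g − 2` by the
bridge of helper80). -/
theorem gaussStatement_of_can [IsAlgClosed K] {E : EmbData K F} (h : GAUSSCanStatement E) :
    GAUSSStatement E := by
  obtain ⟨ω, hω⟩ := Fermat.Agent.Lib.RR.H80.exists_kaehler_ne_zero K F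
  obtain ⟨W, hW, -⟩ := Fermat.Agent.Lib.RR.H80.exists_canonical_kaehler ω hω
  obtain ⟨C, hC⟩ := h ω W hω hW
  refine ⟨W, C, ?_, hC⟩
  rw [Fermat.Agent.Lib.RR.H80.degree_kaehler hω hW, genusFF_eq_genusR]

end Fermat.Agent.S17.HContract
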